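/-
Row 37 (S43), block E0, sub-block (T) = (O6) (helper89).  ABSTRACT PART: weak approximation for two
discrete valuation rings of a field which are separated by an "idempotent" `e`
(`e ≡ 1` at `V₀`, `e ≡ 0` at `V₁`).  Mathlib + `S18.IsUnif` only.
-/
import Mathlib
import Fermat.Agent.S18.Defs

set_option autoImplicit false

namespace Fermat.Agent.S43.E0.TorRep

open Fermat.Agent.S18 (IsUnif)

variable {F : Type*} [Field F]

theorem val_unif_lt_one {V : ValuationSubring F} {ϖ : F} (h : IsUnif V ϖ) :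
    V.valuation ϖ < 1 := by
  have h1 : V.valuation ϖ ≤ 1 := (V.valuation_le_one_iff _).2 h.mem
  refine lt_of_le_of_ne h1 fun h2 => h.inv_notMem ?_
  rw [← V.valuation_le_one_iff, map_inv₀, h2, inv_one]

theorem unif_ne_zero {V : ValuationSubring F} {ϖ : F} (h : IsUnif V ϖ) : ϖ ≠ 0 := by
  rintro rfl
  exact h.inv_notMem (by rw [inv_zero]; exact V.zero_mem)

theorem exists_val_eq_zpow {V : ValuationSubring F} {ϖ : F} (h : IsUnif V ϖ) {y : F}
    (hy : y ≠ 0) : ∃ k : ℤ, V.valuation y = V.valuation ϖ ^ k := by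
  obtain ⟨k, h1, h2⟩ := h.exists_zpow y hy
  refine ⟨k, ?_⟩
  have hϖ : V.valuation (ϖ ^ k) ≠ 0 := (map_ne_zero _).2 (zpow_ne_zero _ (unif_ne_zero h))
  have e1 : V.valuation (y / ϖ ^ k) ≤ 1 := (V.valuation_le_one_iff _).2 h1
  have e2 : V.valuation (y / ϖ ^ k)⁻¹ ≤ 1 := (V.valuation_le_one_iff _).2 h2
  have hne : V.valuation (y / ϖ ^ k) ≠ 0 :=
    (map_ne_zero _).2 (div_ne_zero hy (zpow_ne_zero _ (unif_ne_zero h)))
  rw [map_inv₀, inv_le_one₀ (zero_lt_iff.2 hne)] at e2
  have e3 : V.valuation (y / ϖ ^ k) = 1 := le_antisymm e1 e2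
  rw [map_div₀, div_eq_one_iff_eq hϖ, map_zpow₀] at e3
  exact e3

/-- the powers of a non-unit of a discrete valuation ring tend to zero. -/
theorem exists_pow_mul_lt {V : ValuationSubring F} {ϖ : F} (hV : IsUnif V ϖ) {t : F}
    (ht : V.valuation t < 1) (y : F) :
    ∃ m₀ : ℕ, ∀ m, m₀ ≤ m → V.valuation (y * t ^ m) < 1 := by
  have hϖ1 := val_unif_lt_one hV
  have hϖ0 : 0 < V.valuation ϖ := zero_lt_iff.2 ((map_ne_zero _).2 (unif_ne_zero hV))
  rcases eq_or_ne y 0 with rfl | hy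
  · exact ⟨0, fun m _ => by rw [zero_mul, map_zero]; exact zero_lt_one⟩
  rcases eq_or_ne t 0 with rfl | ht0
  · refine ⟨1, fun m hm => ?_⟩
    rw [zero_pow (by omega), mul_zero, map_zero]
    exact zero_lt_one
  obtain ⟨k, hk⟩ := exists_val_eq_zpow hV hy
  obtain ⟨j, hj⟩ := exists_val_eq_zpow hV ht0
  have hj0 : 0 < j := by
    rw [hj] at ht
    exact (zpow_lt_one_iff_right_of_lt_one₀ hϖ0 hϖ1).1 ht
  refine ⟨(1 - k).toNat, fun m hm => ?_⟩
  rw [map_mul, map_pow, hk, hj, ← zpow_natCast, ← zpow_mul, ← zpow_add₀ hϖ0.ne']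
  apply (zpow_lt_one_iff_right_of_lt_one₀ hϖ0 hϖ1).2
  have h1 : (1 - k) ≤ (m : ℤ) := by
    have := Int.self_le_toNat (1 - k)
    omega
  nlinarith

theorem val_one_add_eq_one {V : ValuationSubring F} {t : F} (ht : V.valuation t < 1) :
    V.valuation (1 + t) = 1 := by
  rw [Valuation.map_add_eq_of_lt_left _ (by rw [map_one]; exact ht), map_one]

/-- **Weak approximation** for two discrete valuation rings. -/
theorem weak_approx_two {V₀ V₁ : ValuationSubring F} {ϖ₀ ϖ₁ : F} (h₀ : IsUnif V₀ ϖ₀)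
    (h₁ : IsUnif V₁ ϖ₁) {e : F} (he₀ : V₀.valuation (e - 1) < 1) (he₁ : V₁.valuation e < 1)
    (a b : F) : ∃ g : F, V₀.valuation (g - a) < 1 ∧ V₁.valuation (g - b) < 1 := by
  have he0 : e ≠ 0 := by
    rintro rfl
    rw [zero_sub, Valuation.map_neg, map_one] at he₀
    exact lt_irrefl _ he₀
  have he1 : 1 - e ≠ 0 := by
    intro h
    have : e = 1 := (sub_eq_zero.1 h).symm
    rw [this, map_one] at he₁
    exact lt_irrefl _ he₁
  have v0e : V₀.valuation e = 1 := by
    have : e = 1 + (e - 1) := by ring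
    rw [this]
    exact val_one_add_eq_one he₀
  have v0e' : V₀.valuation (1 - e) < 1 := by
    rw [← Valuation.map_neg, neg_sub]
    exact he₀
  have v1e' : V₁.valuation (1 - e) = 1 := by
    rw [sub_eq_add_neg]
    exact val_one_add_eq_one (by rw [Valuation.map_neg]; exact he₁)
  set t : F := (1 - e) / e with ht
  have ht0 : t ≠ 0 := div_ne_zero he1 he0
  have vt0 : V₀.valuation t < 1 := by rw [ht, map_div₀, v0e, div_one]; exact v0e'
  have vt1 : V₁.valuation t⁻¹ < 1 := by rw [ht, inv_div, map_div₀, v1e', div_one]; exact he₁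
  obtain ⟨m₀, hm₀⟩ := exists_pow_mul_lt h₀ vt0 (b - a)
  obtain ⟨m₁, hm₁⟩ := exists_pow_mul_lt h₁ vt1 (a - b)
  set m := max (max m₀ m₁) 1 with hm
  have hmm₀ : m₀ ≤ m := le_trans (le_max_left _ _) (le_max_left _ _)
  have hmm₁ : m₁ ≤ m := le_trans (le_max_right _ _) (le_max_left _ _)
  have hm1 : m ≠ 0 := by
    have : 1 ≤ m := le_max_right _ _
    omega
  have w0 : V₀.valuation (1 + t ^ m) = 1 :=
    val_one_add_eq_one (by rw [map_pow]; exact pow_lt_one₀ zero_le vt0 hm1)
  have w1 : V₁.valuation (1 + t⁻¹ ^ m) = 1 :=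
    val_one_add_eq_one (by rw [map_pow]; exact pow_lt_one₀ zero_le vt1 hm1)
  have hd0 : 1 + t ^ m ≠ 0 := by
    intro h
    rw [h, map_zero] at w0
    exact zero_ne_one w0
  have hd1 : 1 + t⁻¹ ^ m ≠ 0 := by
    intro h
    rw [h, map_zero] at w1
    exact zero_ne_one w1
  have htm : t ^ m ≠ 0 := pow_ne_zero _ ht0
  refine ⟨(a + b * t ^ m) / (1 + t ^ m), ?_, ?_⟩
  · have e1 : (a + b * t ^ m) / (1 + t ^ m) - a = (b - a) * t ^ m / (1 + t ^ m) := by
      field_simp
      ring
    rw [e1, map_div₀, w0, div_one]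
    exact hm₀ m hmm₀
  · have e1 : (a + b * t ^ m) / (1 + t ^ m) - b = (a - b) * t⁻¹ ^ m / (1 + t⁻¹ ^ m) := by
      have hx : (1 : F) + t⁻¹ ^ m = (1 + t ^ m) / t ^ m := by
        rw [inv_pow]
        field_simp
        ring
      rw [hx, inv_pow]
      field_simp
      ring
    rw [e1, map_div₀, w1, div_one]
    exact hm₁ m hmm₁

/-- congruent elements have congruent powers. -/
theorem val_pow_sub_pow_lt {V : ValuationSubring F} {g a : F} (ha : a ∈ V)
    (h : V.valuation (g - a) < 1) (n : ℕ) : V.valuation (g ^ n - a ^ n) < 1 := by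
  have hg : g ∈ V := by
    have : g = (g - a) + a := by ring
    rw [this]
    exact V.add_mem _ _ ((V.valuation_le_one_iff _).1 h.le) ha
  induction n with
  | zero => rw [pow_zero, pow_zero, sub_self, map_zero]; exact zero_lt_one
  | succ n ih =>
    have e : g ^ (n + 1) - a ^ (n + 1) = g ^ n * (g - a) + (g ^ n - a ^ n) * a := by ring
    rw [e]
    apply Valuation.map_add_lt
    · rw [map_mul]
      exact lt_of_le_of_lt (mul_le_of_le_one_left' ((V.valuation_le_one_iff _).2 (V.pow_mem hg n))) h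
    · rw [map_mul]
      exact lt_of_le_of_lt (mul_le_of_le_one_right' ((V.valuation_le_one_iff _).2 ha)) ih

/-- replacing an approximate root by a congruent element. -/
theorem val_mul_pow_sub_one_lt {V : ValuationSubring F} {u g a : F} (hu : u ∈ V) (ha : a ∈ V)
    (h : V.valuation (g - a) < 1) {n : ℕ} (h1 : V.valuation (u * a ^ n - 1) < 1) :
    V.valuation (u * g ^ n - 1) < 1 := by
  have e : u * g ^ n - 1 = u * (g ^ n - a ^ n) + (u * a ^ n - 1) := by ring
  rw [e]
  refine Valuation.map_add_lt _ ?_ h1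
  rw [map_mul]
  exact lt_of_le_of_lt (mul_le_of_le_one_left' ((V.valuation_le_one_iff _).2 hu))
    (val_pow_sub_pow_lt ha h n)

end Fermat.Agent.S43.E0.TorRep
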