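/-
Row 37 (S43), block E0, sub-block (T) = (O6) (helper89): **a toric class which has a representative over
the inertia field `K0 A` that is a unit at the two vertical valuations has a representative over `K0 A`
which is `≡ 1` at the two vertical valuations.**

Level `M * q`, `q ∤ M`, `A ∣ q`, arbitrary exponent `n > 0`.
`u₀ ∈ FK (K0 A) (M q)` a unit at `VV 0` (Gauss valuation at `∞`) and at `VV 1 = VV 0 ∘ w_q`;
`f = u₀ h ^ n` (`h ∈ FN (M q)`, over `ℚ̄`) with `f ≡ 1`, `w f ≡ 1` for the Gauss valuation of `FN (M q)`.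
Then there is `g₀ ∈ FK (K0 A) (M q)` with `u₀ g₀ ^ n ≡ 1` at `VV 0` and at `VV 1`.

Proof: the reduction of `h` lies in `k(X₀(M))` (`S44.X.nodeRed`), which is also the residue field of `VV 0`
(`S44.X.Model.rhoM_surjective`: the residue field of `A0 A` is the residue field of `A`); weak approximation.
-/
import Fermat.Agent.S43.E0.TorRep.Abs
import Fermat.Agent.S44.X.Model.Top
import Fermat.Agent.S44.X.Model.GaussFN
import Fermat.Agent.S44.X.Red.Main
import Fermat.Agent.S44.X.Red.API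
import Fermat.Agent.BAD.LevelQ.Mod.Sep
import Fermat.Agent.BAD.LevelQ.Mod.MainK0

set_option autoImplicit false
set_option linter.unusedSectionVars false

noncomputable section

namespace Fermat.Agent.S43.E0.TorRep

open ModularCurve AlgebraicCurve Fermat.Agent.S24 Fermat.Agent.S18 Fermat.Agent.S36.Mod
  Fermat.Agent.BAD.LevelQ Fermat.Agent.BAD.LevelQ.Mod
  Fermat.Agent.Lib.InertiaField Fermat.Agent.S44.X Fermat.Agent.S44.X.Model
  Fermat.Agent.S28.Export Fermat.Agent.S44 Fermat.Agent.S44.X.Cover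

variable {A : ValuationSubring S44.Qb} {q : ℕ} [NeZero q] {M : ℕ} [NeZero M]

/-- `≡ 1` implies "reduces to `1`". -/
theorem isRed_one_of_cong1 {N : ℕ} {f : FN N} (h : C1.Cong1 A N f) : IsRed A f 1 := by
  obtain ⟨P, Q, hP, hQ, h1, h2, rfl⟩ := h
  exact ⟨1, P, Q, hP, hQ, one_ne_zero, h1 ▸ h2, h2, by rw [map_one, one_mul], by rw [one_mul, h1]⟩

/-- **One valuation.** -/
theorem exists_root_gauss [IsDiscreteValuationRing (A0 A)] (hq : q.Prime) (hqM : ¬ q ∣ M)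
    (hA : A.LiesOverPrime q) {u₀ : FK (K0 A) (M * q)}
    (h0 : (Og (A0 A) (M * q)).valuation u₀ = 1) {h : FN (M * q)} {n : ℕ} (hn : 0 < n)
    (hf : IsRed A (bcX (K0 A) (M * q) u₀ * h ^ n) 1) :
    ∃ z : FK (K0 A) (M * q), (Og (A0 A) (M * q)).valuation z = 1 ∧
      (Og (A0 A) (M * q)).valuation (u₀ * z ^ n - 1) < 1 := by
  have hφ := comap_A0 A
  have hu0 : u₀ ≠ 0 := by
    rintro rfl
    rw [map_zero] at h0
    exact zero_ne_one h0
  have hmem : u₀ ∈ (stdEmb (A0 A) (M * q)).val :=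
    ((Og (A0 A) (M * q)).valuation_le_one_iff _).1 h0.le
  set z0 : (stdEmb (A0 A) (M * q)).val := ⟨u₀, hmem⟩ with hz0
  set ub := rhoM hφ hq hA hqM z0 with hub
  have hub0 : ub ≠ 0 := by
    intro h1
    have := (rhoM_eq_zero_iff hφ hq hA hqM z0).1 h1
    exact absurd this (not_lt.2 h0.ge)
  have hub0' : (ub : LaurentSeries (kA A)) ≠ 0 := fun h1 => hub0 (Subtype.ext h1)
  have hr0 : IsRed A (bcX (K0 A) (M * q) u₀) (ub : LaurentSeries (kA A)) :=
    isRed_of_red hq hA hub0' one_ne_zero (by rw [one_smul]; exact red_rhoM hφ hq hA hqM z0)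
  have hb0 : bcX (K0 A) (M * q) u₀ ≠ 0 := hr0.left_ne_zero
  have hr1 : IsRed A (h ^ n) (1 / (ub : LaurentSeries (kA A))) := by
    have := hf.div hr0
    rwa [mul_div_cancel_left₀ _ hb0] at this
  obtain ⟨vbar, hv, hvn⟩ := hr1.exists_root hq hA hn
  have hh0 : h ≠ 0 := hv.left_ne_zero
  obtain ⟨yb, hyb⟩ := nodeRed q M hq hqM A hA h hh0
  obtain ⟨a, ha, hav⟩ := hyb.unique hv
  set vb : Fk A M := algebraMap (kA A) (Fk A M) a * yb with hvb
  have hvb' : (vb : LaurentSeries (kA A)) = vbar := by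
    rw [hav, hvb, MulMemClass.coe_mul]
    congr 1
    show algebraMap (kA A) (LaurentSeries (kA A)) a = HahnSeries.C a
    rw [algebraMap_laurentSeries_eq_single]
    rfl
  obtain ⟨z1, hz1⟩ := rhoM_surjective hφ hq hA hqM (resFieldMap_surjective hq hA) vb
  have hvb0 : vb ≠ 0 := by
    intro h1
    apply hv.ne_zero
    rw [← hvb', h1]
    rfl
  have key : ub * vb ^ n = 1 := by
    apply Subtype.ext
    rw [MulMemClass.coe_mul, SubmonoidClass.coe_pow, hvb', ← hvn, mul_one_div_cancel hub0']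
    rfl
  refine ⟨z1, ?_, ?_⟩
  · have h1 : ¬ (stdEmb (A0 A) (M * q)).val.valuation (z1 : FK (K0 A) (M * q)) < 1 := by
      intro h2
      exact hvb0 (hz1 ▸ rhoM_eq_zero hφ hq hA hqM z1 h2)
    exact le_antisymm ((ValuationSubring.valuation_le_one_iff _ _).2 z1.2) (not_lt.1 h1)
  · have h1 : rhoM hφ hq hA hqM (z0 * z1 ^ n - 1) = 0 := by
      rw [map_sub, map_mul, map_pow, map_one, hz1, ← hub, key, sub_self]
    exact (rhoM_eq_zero_iff hφ hq hA hqM _).1 h1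

theorem val_VV_one [IsDiscreteValuationRing (A0 A)] (hc : M.Coprime q) (y : FK (K0 A) (M * q)) :
    ((VV (A0 A) hc 1).valuation y < 1 ↔ (Og (A0 A) (M * q)).valuation (ww (K0 A) hc y) < 1) ∧
    ((VV (A0 A) hc 1).valuation y = 1 ↔ (Og (A0 A) (M * q)).valuation (ww (K0 A) hc y) = 1) := by
  have hm : ∀ y, y ∈ VV (A0 A) hc 1 ↔ ww (K0 A) hc y ∈ Og (A0 A) (M * q) := mem_VV_one hc
  have hle : ∀ y, (VV (A0 A) hc 1).valuation y ≤ 1 ↔
      (Og (A0 A) (M * q)).valuation (ww (K0 A) hc y) ≤ 1 := fun y => by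
    rw [ValuationSubring.valuation_le_one_iff, ValuationSubring.valuation_le_one_iff, hm]
  have hlt : ∀ y, (VV (A0 A) hc 1).valuation y < 1 ↔
      (Og (A0 A) (M * q)).valuation (ww (K0 A) hc y) < 1 := by
    intro y
    rcases eq_or_ne y 0 with rfl | hy
    · simp
    have hwy : ww (K0 A) hc y ≠ 0 := (map_ne_zero _).2 hy
    have e1 : (VV (A0 A) hc 1).valuation y < 1 ↔ ¬ (VV (A0 A) hc 1).valuation y⁻¹ ≤ 1 := by
      rw [map_inv₀, inv_le_one₀ (zero_lt_iff.2 ((map_ne_zero _).2 hy)), not_le]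
    have e2 : (Og (A0 A) (M * q)).valuation (ww (K0 A) hc y) < 1 ↔
        ¬ (Og (A0 A) (M * q)).valuation (ww (K0 A) hc y⁻¹) ≤ 1 := by
      rw [map_inv₀, map_inv₀, inv_le_one₀ (zero_lt_iff.2 ((map_ne_zero _).2 hwy)), not_le]
    rw [e1, e2, hle]
  refine ⟨hlt y, ?_⟩
  constructor
  · intro h
    exact le_antisymm ((hle y).1 h.le) (not_lt.1 fun h2 => absurd ((hlt y).2 h2) (not_lt.2 h.ge))
  · intro h
    exact le_antisymm ((hle y).2 h.le) (not_lt.1 fun h2 => absurd ((hlt y).1 h2) (not_lt.2 h.ge))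

/-- **(T)**, in terms of reductions. -/
theorem exists_toric_rep_of_isRed [IsDiscreteValuationRing (A0 A)] (hq : q.Prime) (hqM : ¬ q ∣ M)
    (hc : M.Coprime q) (hA : A.LiesOverPrime q) (D : C1.ALData M q) {n : ℕ} (hn : 0 < n)
    {u₀ : FK (K0 A) (M * q)} (h0 : (VV (A0 A) hc 0).valuation u₀ = 1)
    (h1 : (VV (A0 A) hc 1).valuation u₀ = 1) {h : FN (M * q)}
    (hf0 : IsRed A (bcX (K0 A) (M * q) u₀ * h ^ n) 1)
    (hf1 : IsRed A (D.w (bcX (K0 A) (M * q) u₀ * h ^ n)) 1) :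
    ∃ g₀ : FK (K0 A) (M * q), g₀ ≠ 0 ∧
      ∀ c, (VV (A0 A) hc c).valuation (u₀ * g₀ ^ n - 1) < 1 := by
  obtain ⟨z, hz1, hz2⟩ := exists_root_gauss hq hqM hA (u₀ := u₀) h0 hn hf0
  have h1' : (Og (A0 A) (M * q)).valuation (ww (K0 A) hc u₀) = 1 := (val_VV_one hc u₀).2.1 h1
  have hf1' : IsRed A (bcX (K0 A) (M * q) (ww (K0 A) hc u₀) * (D.w h) ^ n) 1 := by
    rw [bcX_ww hq hc D, ← map_pow, ← map_mul]
    exact hf1
  obtain ⟨z', hz1', hz2'⟩ := exists_root_gauss hq hqM hA h1' hn hf1'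
  -- transport to `VV 1`
  set b := ww (K0 A) hc z' with hb
  have hwb : ww (K0 A) hc b = z' := ww_ww hc z'
  have hb1 : (VV (A0 A) hc 1).valuation b = 1 := (val_VV_one hc b).2.2 (by rw [hwb]; exact hz1')
  have hb2 : (VV (A0 A) hc 1).valuation (u₀ * b ^ n - 1) < 1 := by
    apply (val_VV_one hc _).1.2
    rw [map_sub, map_mul, map_pow, map_one, hwb]
    exact hz2'
  have hU := isUnif_A0 A hq hA
  have hchar : (A0 A).valuation (q : K0 A) < 1 := valuation_natCast_lt_one_of_isUnif hU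
  obtain ⟨e, he0, he1⟩ := exists_idem (A₀ := A0 A) hq hchar hc
  obtain ⟨g, hg0, hg1⟩ := weak_approx_two (isUnif_VV hU hc 0) (isUnif_VV hU hc 1) he0 he1 z b
  have hmem : ∀ (V : ValuationSubring (FK (K0 A) (M * q))) (y : FK (K0 A) (M * q)),
      V.valuation y = 1 → y ∈ V := fun V y hy => (V.valuation_le_one_iff y).1 hy.le
  have r0 : (VV (A0 A) hc 0).valuation (u₀ * g ^ n - 1) < 1 :=
    val_mul_pow_sub_one_lt (hmem _ _ h0) (hmem _ _ hz1) hg0 hz2
  have r1 : (VV (A0 A) hc 1).valuation (u₀ * g ^ n - 1) < 1 :=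
    val_mul_pow_sub_one_lt (hmem _ _ h1) (hmem _ _ hb1) hg1 hb2
  refine ⟨g, ?_, fun c => ?_⟩
  · rintro rfl
    rw [zero_pow hn.ne', mul_zero, zero_sub, Valuation.map_neg, map_one] at r0
    exact lt_irrefl _ r0
  · have hd : c = 0 ∨ c = 1 := by omega
    rcases hd with rfl | rfl
    · exact r0
    · exact r1

/-- **(T)**: a `K0 A`-rational toric representative. -/
theorem exists_toric_rep [IsDiscreteValuationRing (A0 A)] (hq : q.Prime) (hqM : ¬ q ∣ M)
    (hc : M.Coprime q) (hA : A.LiesOverPrime q) (D : C1.ALData M q) {n : ℕ} (hn : 0 < n)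
    {u₀ : FK (K0 A) (M * q)} (h0 : (VV (A0 A) hc 0).valuation u₀ = 1)
    (h1 : (VV (A0 A) hc 1).valuation u₀ = 1) {h : FN (M * q)}
    (hf0 : C1.Cong1 A (M * q) (bcX (K0 A) (M * q) u₀ * h ^ n))
    (hf1 : C1.Cong1 A (M * q) (D.w (bcX (K0 A) (M * q) u₀ * h ^ n))) :
    ∃ g₀ : FK (K0 A) (M * q), g₀ ≠ 0 ∧
      ∀ c, (VV (A0 A) hc c).valuation (u₀ * g₀ ^ n - 1) < 1 :=
  exists_toric_rep_of_isRed hq hqM hc hA D hn h0 h1 (isRed_one_of_cong1 hf0)
    (isRed_one_of_cong1 hf1)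

end Fermat.Agent.S43.E0.TorRep

end
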