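/-
Row 37 (S43), block E0, node TORREP: the statement of helper177's skeleton (`TorRep/WIP/Skeleton.lean`),
deduced from `TorRep/Main.lean` (helper89).
-/
import Fermat.Agent.S43.E0.TorRep.Main
import Fermat.Agent.S44.Depth.Inst.Defs

set_option autoImplicit false

noncomputable section

namespace Fermat.Agent.S43.E0.TorRep

open ModularCurve AlgebraicCurve Fermat.Agent.S24 Fermat.Agent.S18 Fermat.Agent.GAL.E
  Fermat.Agent.Lib.InertiaField Fermat.Agent.BAD.LevelQ.Mod Fermat.Agent.C1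
  Fermat.Agent.S44.Depth.Inst

variable {A : ValuationSubring Qb} {q : ℕ} {M : ℕ} [NeZero M] [NeZero q]

/-- **TORREP.** -/
theorem torRep [IsDiscreteValuationRing (A0 A)] (hq : q.Prime) (hA : A.LiesOverPrime q)
    (hc : M.Coprime q) (D : ALData M q) {n : ℕ} (hn : n ≠ 0)
    {u0 : FK (K0 A) (M * q)} {w g : FN (M * q)}
    (h : bcK (K0 A) (M * q) u0 = w * g ^ n)
    (hw : Cong1 A (M * q) w) (hw' : Cong1 A (M * q) (D.w w))
    (hu : ∀ i, (VV (A0 A) hc i).valuation u0 = 1) :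
    ∃ g0 : FK (K0 A) (M * q), g0 ≠ 0 ∧
      ∀ i, (VV (A0 A) hc i).valuation (u0 / g0 ^ n - 1) < 1 := by
  have hqM : ¬ q ∣ M := fun hd => hq.one_lt.ne' (Nat.Coprime.eq_one_of_dvd hc.symm hd)
  have hu0 : u0 ≠ 0 := by
    rintro rfl
    have := hu 0
    rw [map_zero] at this
    exact zero_ne_one this
  have hg : g ≠ 0 := by
    rintro rfl
    rw [zero_pow hn, mul_zero] at h
    exact hu0 ((map_eq_zero _).1 h)
  have e : S44.X.Cover.bcX (K0 A) (M * q) u0 * g⁻¹ ^ n = w := by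
    have h' : S44.X.Cover.bcX (K0 A) (M * q) u0 = w * g ^ n := h
    rw [h', inv_pow, mul_assoc, mul_inv_cancel₀ (pow_ne_zero _ hg), mul_one]
  obtain ⟨g₀, hg₀, hv⟩ := exists_toric_rep hq hqM hc hA D (Nat.pos_of_ne_zero hn) (hu 0) (hu 1)
    (h := g⁻¹) (by rw [e]; exact hw) (by rw [e]; exact hw')
  refine ⟨g₀⁻¹, inv_ne_zero hg₀, fun i => ?_⟩
  rw [inv_pow, div_inv_eq_mul]
  exact hv i

end Fermat.Agent.S43.E0.TorRep

end
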