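/-
Row 37 (S43), block E0, node TORREP, leaf (L): lifting of reductions to the inertia field.
An `A`-integral series of `FN N` has the same reduction as an element of `FK (K0 A) N`.
-/
import Fermat.Agent.BAD.Bridge.Span
import Fermat.Agent.C1.Red.Field
import Fermat.Agent.Lib.InertiaField.TotRam.Main
import Fermat.Agent.Lib.InertiaField.TotRam.Conseq
import Fermat.Agent.S44.Depth.Inst.Defs

set_option autoImplicit false

noncomputable section

namespace Fermat.Agent.S43.E0.TorRep

open ModularCurve AlgebraicCurve Fermat.Agent.S24 Fermat.Agent.S18 Fermat.Agent.GAL.E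
  Fermat.Agent.Lib.InertiaField Fermat.Agent.BAD.LevelQ.Mod Fermat.Agent.C1
  Fermat.Agent.S44.Depth.Inst

variable {A : ValuationSubring Qb} {q : ℕ}

theorem exists_lift (hq : q.Prime) (hA : A.LiesOverPrime q) (N : ℕ) (P : LaurentSeries A)
    (hP : incl A P ∈ modularFunctionFieldBar N) (hred : red A P ≠ 0) :
    ∃ X : FK (K0 A) N, RedS A ((bcK (K0 A) N X : FN N) : LaurentSeries Kbar) 1 (red A P) := by
  classical
  have h1 := BAD.Bridge.mem_span_of_mem_laurentBaseChange (L := K0 A) (L' := Qb)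
    (modularFunctionFieldFull N) hP
  rw [Submodule.mem_span_set'] at h1
  obtain ⟨m, f, g, hfg⟩ := h1
  have hg : ∀ i, ∃ y ∈ laurentBaseChange (K0 A) (modularFunctionFieldFull N),
      coeffMap (algebraMap (K0 A) Qb) y = (g i : LaurentSeries Qb) := fun i => (g i).2
  choose y hy hyg using hg
  obtain ⟨ϖ, n, h, hst⟩ := exists_isTotUnif hq hA (Set.finite_range f)
  have hf : ∀ i, f i ∈ adj A {ϖ} := fun i =>
    mem_adj_singleton.2 (fun σ hσ hϖ => (hst σ hσ).1 hϖ (f i) ⟨i, rfl⟩)
  choose a ha hsum using fun i => h.expand_K0 hq hA (hf i)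
  -- the components
  have hcm : ∀ (L : Type) [Field L] (c : L) (z : LaurentSeries L) (k : ℤ),
      (algebraMap L (LaurentSeries L) c * z).coeff k = c * z.coeff k := by
    intro L _ c z k
    rw [algebraMap_laurentSeries_eq_single, HahnSeries.single_zero_mul_eq_smul,
      HahnSeries.coeff_smul, smul_eq_mul]
  set R : ℕ → LaurentSeries (K0 A) := fun j =>
    ∑ i, algebraMap (K0 A) (LaurentSeries (K0 A)) (⟨a i j, ha i j⟩ : K0 A) * y i with hR
  have hRmem : ∀ j, R j ∈ laurentBaseChange (K0 A) (modularFunctionFieldFull N) := fun j =>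
    sum_mem (fun i _ => mul_mem (IntermediateField.algebraMap_mem _ _) (hy i))
  have hRc : ∀ j k, (((R j).coeff k : K0 A) : Qb) = ∑ i, a i j * (((y i).coeff k : K0 A) : Qb) := by
    intro j k
    have e1 : (R j).coeff k = ∑ i, (⟨a i j, ha i j⟩ : K0 A) * (y i).coeff k := by
      rw [hR]
      simp only [HahnSeries.coeff_sum, hcm]
    rw [e1]
    push_cast
    rfl
  have hPc : ∀ k, ((P.coeff k : A) : Qb) =
      ∑ j ∈ Finset.range n, (((R j).coeff k : K0 A) : Qb) * ϖ ^ j := by
    intro k
    have e1 : ((P.coeff k : A) : Qb) = (∑ i, f i • (g i : LaurentSeries Qb)).coeff k := by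
      rw [hfg]; rfl
    rw [e1]
    have e2 : ∀ i, (f i • (g i : LaurentSeries Qb)).coeff k
        = ∑ j ∈ Finset.range n, a i j * (((y i).coeff k : K0 A) : Qb) * ϖ ^ j := by
      intro i
      rw [BAD.Bridge.span_smul_eq, hcm, ← hyg i, coeffMap_coeff]
      conv_lhs => rw [hsum i]
      rw [Finset.sum_mul]
      refine Finset.sum_congr rfl (fun j _ => ?_)
      show a i j * ϖ ^ j * (((y i).coeff k : K0 A) : Qb) = _
      ring
    rw [HahnSeries.coeff_sum]
    simp only [e2, hRc]
    rw [Finset.sum_comm]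
    refine Finset.sum_congr rfl (fun j _ => ?_)
    rw [Finset.sum_mul]
  have hRA : ∀ k j, j < n → (((R j).coeff k : K0 A) : Qb) ∈ A := by
    intro k j hj
    exact coeff_mem_of_sum_mem hq hA h.pos h.val_pow
      (a := fun j => (((R j).coeff k : K0 A) : Qb)) (fun j => ((R j).coeff k).2)
      (by rw [← hPc k]; exact (P.coeff k).2) hj
  obtain ⟨P', hP'⟩ := exists_incl_eq A (coeffMap (algebraMap (K0 A) Qb) (R 0))
    (fun k => hRA k 0 h.pos)
  have hredeq : red A P' = red A P := by
    ext k
    rw [coeff_red, coeff_red]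
    have hP'k : ((P'.coeff k : A) : Qb) = (((R 0).coeff k : K0 A) : Qb) :=
      congrArg (fun z => HahnSeries.coeff z k) hP'
    have hmem : P.coeff k - P'.coeff k ∈ IsLocalRing.maximalIdeal A := by
      rw [ValuationSubring.valuation_lt_one_iff]
      have e3 : ((P.coeff k - P'.coeff k : A) : Qb) = ((P.coeff k : A) : Qb) - ((P'.coeff k : A) : Qb) :=
        rfl
      rw [e3, hP'k, hPc k]
      have hn := h.pos
      obtain ⟨n', rfl⟩ : ∃ n', n = n' + 1 := ⟨n - 1, by omega⟩
      rw [Finset.sum_range_succ', pow_zero, mul_one, add_sub_cancel_right]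
      refine Valuation.map_sum_lt _ one_ne_zero (fun j hj => ?_)
      rw [map_mul, map_pow]
      have h6 : A.valuation (((R (j + 1)).coeff k : K0 A) : Qb) ≤ 1 :=
        (A.valuation_le_one_iff _).2 (hRA k (j + 1) (by have := Finset.mem_range.1 hj; omega))
      have h7 : A.valuation ϖ ^ (j + 1) < 1 := pow_lt_one₀ zero_le (h.val_lt_one hA) (by omega)
      calc _ ≤ 1 * A.valuation ϖ ^ (j + 1) := mul_le_mul_left h6 _
        _ < 1 := by rw [one_mul]; exact h7
    symm
    rw [← sub_eq_zero, ← map_sub, IsLocalRing.residue_eq_zero_iff]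
    exact hmem
  refine ⟨⟨R 0, hRmem 0⟩, ?_⟩
  have h5 := RedS.of_integral P' (by rw [hredeq]; exact hred)
  rw [hP', hredeq] at h5
  exact h5

end Fermat.Agent.S43.E0.TorRep

end
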