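/-
Row 37 (S43), block E0, node TORREP (architect helper177), leaf TORREP-W (helper40):
congruence to one at a valuation subring, weak approximation for two discrete valuation subrings.
-/
import Fermat.Agent.S36.BP.Approx

set_option autoImplicit false

noncomputable section

namespace Fermat.Agent.S43.E0.TorRep

open Fermat.Agent.S18 Fermat.Agent.S36.BP

variable {F : Type*} [Field F]

/-- `z ≡ 1` at `V`. -/
def C1V (V : ValuationSubring F) (z : F) : Prop := V.valuation (z - 1) < 1

theorem C1V.val_eq_one {V : ValuationSubring F} {a : F} (ha : C1V V a) : V.valuation a = 1 := by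
  have h := Valuation.map_one_add_of_lt V.valuation ha
  rwa [add_sub_cancel] at h

theorem C1V.ne_zero {V : ValuationSubring F} {a : F} (ha : C1V V a) : a ≠ 0 := by
  rintro rfl
  have h := ha.val_eq_one
  rw [map_zero] at h
  exact zero_ne_one h

theorem C1V.mul {V : ValuationSubring F} {a b : F} (ha : C1V V a) (hb : C1V V b) :
    C1V V (a * b) := by
  have e : a * b - 1 = (a - 1) * b + (b - 1) := by ring
  unfold C1V
  rw [e]
  refine Valuation.map_add_lt _ ?_ hb
  rw [map_mul, hb.val_eq_one, mul_one]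
  exact ha

theorem C1V.inv {V : ValuationSubring F} {a : F} (ha : C1V V a) : C1V V a⁻¹ := by
  have h0 := ha.ne_zero
  have e : a⁻¹ - 1 = -(a - 1) * a⁻¹ := by
    field_simp
    ring
  unfold C1V
  rw [e, map_mul, map_inv₀, ha.val_eq_one, inv_one, mul_one, Valuation.map_neg]
  exact ha

theorem C1V.one (V : ValuationSubring F) : C1V V (1 : F) := by
  unfold C1V
  rw [sub_self, map_zero]
  exact zero_lt_one

theorem C1V.pow {V : ValuationSubring F} {a : F} (ha : C1V V a) (n : ℕ) : C1V V (a ^ n) := by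
  induction n with
  | zero => rw [pow_zero]; exact C1V.one V
  | succ n ih => rw [pow_succ]; exact ih.mul ha

theorem weak2 {W W' : ValuationSubring F} {ϖ ϖ' : F} (hU : IsUnif W ϖ) (hU' : IsUnif W' ϖ')
    (hne : W ≠ W') {a b : F} (ha : a ≠ 0) (hb : b ≠ 0) :
    ∃ h : F, h ≠ 0 ∧ C1V W (h / a) ∧ C1V W' (h / b) := by
  obtain ⟨x, hx', hx⟩ := approx_pair hU' hU hne.symm
  have hx0 : x ≠ 0 := by
    rintro rfl
    rw [map_zero] at hx'
    exact absurd hx' (not_lt.2 zero_le_one)
  have hxi : W'.valuation x⁻¹ < 1 := by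
    rw [map_inv₀]
    exact inv_lt_one_of_one_lt₀ hx'
  obtain ⟨r, ⟨⟨h1, h2⟩, h3⟩, h4⟩ := ((((approx_eventually_lt_one hU hx (b / a)).and
    (approx_eventually_lt_one hU hx 1)).and (approx_eventually_lt_one hU' hxi (a / b))).and
    (approx_eventually_lt_one hU' hxi 1)).exists
  rw [mul_one] at h2 h4
  have d1 : W.valuation (1 + x ^ r) = 1 := Valuation.map_one_add_of_lt _ h2
  have d2 : W'.valuation (1 + x⁻¹ ^ r) = 1 := Valuation.map_one_add_of_lt _ h4
  have n1 : 1 + x ^ r ≠ 0 := by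
    intro h
    rw [h, map_zero] at d1
    exact zero_ne_one d1
  have n2 : 1 + x⁻¹ ^ r ≠ 0 := by
    intro h
    rw [h, map_zero] at d2
    exact zero_ne_one d2
  have c1 : C1V W ((a + b * x ^ r) / (1 + x ^ r) / a) := by
    have e : (a + b * x ^ r) / (1 + x ^ r) / a - 1 = (x ^ r * (b / a) - x ^ r) / (1 + x ^ r) := by
      field_simp
      ring
    unfold C1V
    rw [e, map_div₀, d1, div_one]
    exact Valuation.map_sub_lt _ h1 h2
  have c2 : C1V W' ((a + b * x ^ r) / (1 + x ^ r) / b) := by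
    have e : (a + b * x ^ r) / (1 + x ^ r) / b - 1
        = (x⁻¹ ^ r * (a / b) - x⁻¹ ^ r) / (1 + x⁻¹ ^ r) := by
      have hxr : x ^ r ≠ 0 := pow_ne_zero _ hx0
      have n3 : x ^ r + 1 ≠ 0 := by rwa [add_comm]
      rw [inv_pow]
      field_simp
      ring
    unfold C1V
    rw [e, map_div₀, d2, div_one]
    exact Valuation.map_sub_lt _ h3 h4
  refine ⟨(a + b * x ^ r) / (1 + x ^ r), ?_, c1, c2⟩
  intro h
  exact c1.ne_zero (by rw [h, zero_div])

theorem weak_val_lt_one_iff (V : ValuationSubring F) (w : F) :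
    V.valuation w < 1 ↔ w = 0 ∨ w⁻¹ ∉ V := by
  rcases eq_or_ne w 0 with rfl | hw
  · simp
  · have h2 : V.valuation w ≠ 0 := (Valuation.ne_zero_iff _).mpr hw
    rw [← ValuationSubring.valuation_le_one_iff, map_inv₀, inv_le_one₀ (zero_lt_iff.mpr h2), not_le]
    simp [hw]

theorem weak_val_lt_one_comap {V V' : ValuationSubring F} (φ : F ≃+* F)
    (h : ∀ y, y ∈ V' ↔ φ y ∈ V) (w : F) : V'.valuation w < 1 ↔ V.valuation (φ w) < 1 := by
  rw [weak_val_lt_one_iff, weak_val_lt_one_iff, h, map_inv₀, map_eq_zero_iff φ φ.injective]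

/-- transport along an involution -/
theorem c1V_comap {V V' : ValuationSubring F} (φ : F ≃+* F) (h : ∀ y, y ∈ V' ↔ φ y ∈ V) (z : F) :
    C1V V' z ↔ C1V V (φ z) := by
  unfold C1V
  rw [weak_val_lt_one_comap φ h, map_sub, map_one]

theorem val_eq_one_comap {V V' : ValuationSubring F} (φ : F ≃+* F) (h : ∀ y, y ∈ V' ↔ φ y ∈ V)
    (z : F) : V'.valuation z = 1 ↔ V.valuation (φ z) = 1 := by
  have key : ∀ (U : ValuationSubring F) (w : F),
      U.valuation w = 1 ↔ w ∈ U ∧ ¬ U.valuation w < 1 := by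
    intro U w
    rw [← ValuationSubring.valuation_le_one_iff, not_lt]
    exact ⟨fun e => ⟨e.le, e.ge⟩, fun e => le_antisymm e.1 e.2⟩
  rw [key, key, h, weak_val_lt_one_comap φ h]

end Fermat.Agent.S43.E0.TorRep

end
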